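import Fermat.Agent.S14.SecondIneq.Defs

/-!
# S14 / SecondIneq / Units, leaf `Base`: the `∅`-units are the units of `𝓞 F`

* `relIndex_SU_empty`: `[E_∅ : E_∅ ∩ Fˣᵖ] = [(𝓞 F)ˣ : ((𝓞 F)ˣ)ᵖ]`
  (the `∅`-units are the image of `(𝓞 F)ˣ` in `Fˣ`, and a `p`-th root in `Fˣ` of a unit of `𝓞 F`
  is a unit of `𝓞 F`);
* `dvd_card_torsion`: if `ζ_p ∈ F` then `p` divides the order of the torsion subgroup of
  `(𝓞 F)ˣ`.
-/

set_option autoImplicit false

namespace Fermat.Agent.S14.SecondIneq.Units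

open NumberField IsDedekindDomain

/-- The `∅`-units of `F` are exactly the image of `(𝓞 F)ˣ` in `Fˣ`. -/
theorem unit_empty_eq_range (F : Type*) [Field F] [NumberField F] :
    (∅ : Set (HeightOneSpectrum (𝓞 F))).unit F =
      (Units.map (algebraMap (𝓞 F) F : 𝓞 F →* F)).range := by
  ext x
  constructor
  · intro hx
    have h1 : ∀ v : HeightOneSpectrum (𝓞 F), v.valuation F (x : F) = 1 :=
      fun v => hx v (Set.notMem_empty v)
    obtain ⟨a, ha⟩ :=
      HeightOneSpectrum.mem_integers_of_valuation_le_one F (x : F) (fun v => (h1 v).le)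
    obtain ⟨b, hb⟩ :=
      HeightOneSpectrum.mem_integers_of_valuation_le_one F ((x⁻¹ : Fˣ) : F) (fun v => by
        rw [Units.val_inv_eq_inv_val, map_inv₀, h1 v, inv_one])
    have hinj : Function.Injective (algebraMap (𝓞 F) F) := RingOfIntegers.coe_injective
    have hab : a * b = 1 := hinj (by rw [map_mul, ha, hb, map_one, Units.mul_inv])
    have hba : b * a = 1 := by rw [mul_comm]; exact hab
    exact ⟨⟨a, b, hab, hba⟩, Units.ext ha⟩
  · rintro ⟨u, rfl⟩ v _
    have h := HeightOneSpectrum.valuation_of_unit_eq (K := F) v u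
    rw [← HeightOneSpectrum.valuationOfNeZero_eq, h]
    rfl

/-- `[E_∅ : E_∅ ∩ Fˣᵖ] = [(𝓞 F)ˣ : ((𝓞 F)ˣ)ᵖ]`. -/
theorem relIndex_SU_empty (p : ℕ) (hp : 0 < p) (F : Type*) [Field F] [NumberField F] :
    (PthPow p F).relIndex (SU F ∅) = (powMonoidHom p : (𝓞 F)ˣ →* (𝓞 F)ˣ).range.index := by
  have hinj : Function.Injective (Units.map (algebraMap (𝓞 F) F : 𝓞 F →* F)) :=
    Units.map_injective RingOfIntegers.coe_injective
  have h1 : SU F ∅ = (Units.map (algebraMap (𝓞 F) F : 𝓞 F →* F)).range := by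
    rw [← unit_empty_eq_range, SU, Finset.coe_empty]
  rw [h1, ← Subgroup.index_comap]
  congr 1
  ext u
  rw [Subgroup.mem_comap]
  constructor
  · rintro ⟨t, ht⟩
    rw [powMonoidHom_apply] at ht
    have ht' : t ∈ (∅ : Set (HeightOneSpectrum (𝓞 F))).unit F := by
      intro v hv
      have hu : Units.map (algebraMap (𝓞 F) F : 𝓞 F →* F) u ∈
          (∅ : Set (HeightOneSpectrum (𝓞 F))).unit F := by
        rw [unit_empty_eq_range]; exact ⟨u, rfl⟩
      have h2 := hu v hv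
      rw [← ht, Units.val_pow_eq_pow_val, map_pow] at h2
      exact (pow_eq_one_iff_of_nonneg zero_le hp.ne').1 h2
    rw [unit_empty_eq_range] at ht'
    obtain ⟨w, rfl⟩ := ht'
    refine ⟨w, hinj ?_⟩
    rw [powMonoidHom_apply, map_pow, ht]
  · rintro ⟨w, rfl⟩
    exact ⟨Units.map (algebraMap (𝓞 F) F : 𝓞 F →* F) w, by
      rw [powMonoidHom_apply, powMonoidHom_apply, map_pow]⟩

/-- If `F` contains a primitive `p`-th root of unity, then `p` divides the order of the torsion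
subgroup of `(𝓞 F)ˣ`. -/
theorem dvd_card_torsion {p : ℕ} [Fact p.Prime] (F : Type*) [Field F] [NumberField F]
    (hζ : ∃ ζ : F, IsPrimitiveRoot ζ p) : p ∣ Nat.card (NumberField.Units.torsion F) := by
  obtain ⟨ζ, hζ⟩ := hζ
  have hp : p.Prime := Fact.out
  have hint : IsIntegral ℤ ζ := hζ.isIntegral hp.pos
  set z : 𝓞 F := ⟨ζ, hint⟩ with hz
  have hzp : z ^ p = 1 := RingOfIntegers.ext (by
    change (algebraMap (𝓞 F) F) (z ^ p) = algebraMap (𝓞 F) F 1
    rw [map_pow, map_one]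
    exact hζ.pow_eq_one)
  set u : (𝓞 F)ˣ := Units.ofPowEqOne z p hzp hp.ne_zero with hu
  have hup : u ^ p = 1 := Units.pow_ofPowEqOne hzp hp.ne_zero
  have hu1 : u ≠ 1 := by
    intro h
    apply hζ.ne_one hp.one_lt
    have h3 : (u : 𝓞 F) = 1 := by rw [h]; rfl
    have h4 : (algebraMap (𝓞 F) F) (u : 𝓞 F) = 1 := by rw [h3, map_one]
    exact h4
  have hord : orderOf u = p := orderOf_eq_prime hup hu1
  have hmem : u ∈ NumberField.Units.torsion F :=
    isOfFinOrder_iff_pow_eq_one.2 ⟨p, hp.pos, hup⟩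
  have h5 : orderOf (⟨u, hmem⟩ : NumberField.Units.torsion F) = p := by
    rw [Subgroup.orderOf_mk, hord]
  rw [← h5]
  exact orderOf_dvd_natCard _

end Fermat.Agent.S14.SecondIneq.Units
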