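import Fermat.Agent.S14.SecondIneq.Defs

/-!
# S14 / SecondIneq / Units, leaf `Free`: index of the `p`-th powers in `T × ℤ^n`

Pure group theory.  If every element of the commutative group `U` is uniquely
`ζ * ∏ i, u i ^ e i` with `ζ` in a finite cyclic subgroup `T` of order divisible by `p` and
`e : Fin n → ℤ` (i.e. `U ≅ T × ℤ^n`), then `[U : U^p] = p ^ (n + 1)`.
(The hypothesis is the shape of Mathlib's Dirichlet unit theorem
`NumberField.Units.exist_unique_eq_mul_prod`.)
-/

set_option autoImplicit false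

namespace Fermat.Agent.S14.SecondIneq.Units

/-- The `p`-th powers have index `p` in `Multiplicative ℤ`. -/
theorem Free.aux_index_pow_int (p : ℕ) :
    (powMonoidHom p : Multiplicative ℤ →* Multiplicative ℤ).range.index = p := by
  have h : (powMonoidHom p : Multiplicative ℤ →* Multiplicative ℤ).range =
      AddSubgroup.toSubgroup (AddSubgroup.zmultiples (p : ℤ)) := by
    ext x
    rw [MonoidHom.mem_range, Multiplicative.mem_toSubgroup, AddSubgroup.mem_zmultiples_iff]
    constructor
    · rintro ⟨y, rfl⟩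
      exact ⟨Multiplicative.toAdd y, by simp [mul_comm]⟩
    · rintro ⟨k, hk⟩
      refine ⟨Multiplicative.ofAdd k, ?_⟩
      apply Multiplicative.toAdd.injective
      rw [← hk]
      simp [mul_comm]
  rw [h, AddSubgroup.index_toSubgroup, Int.index_zmultiples, Int.natAbs_natCast]

/-- `[U : U^p] = p ^ (n + 1)` for `U ≅ T × ℤ^n`, `T` finite cyclic of order divisible by `p`. -/
theorem index_range_pow_of_exists_unique {U : Type*} [CommGroup U] {p n : ℕ} (_hp : p.Prime)
    (T : Subgroup U) [Finite T] [IsCyclic T] (hpT : p ∣ Nat.card T) (u : Fin n → U)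
    (h : ∀ x : U, ∃! ζe : T × (Fin n → ℤ), x = ζe.1 * ∏ i, u i ^ ζe.2 i) :
    (powMonoidHom p : U →* U).range.index = p ^ (n + 1) := by
  -- the homomorphism
  let ψ : (Fin n → Multiplicative ℤ) →* U :=
    { toFun := fun e => ∏ i, u i ^ Multiplicative.toAdd (e i)
      map_one' := by simp
      map_mul' := fun e e' => by
        simp only [Pi.mul_apply, toAdd_mul, zpow_add, Finset.prod_mul_distrib] }
  let Φ : T × (Fin n → Multiplicative ℤ) →* U := MonoidHom.coprod T.subtype ψ
  have hΦ : ∀ (ζ : T) (e : Fin n → Multiplicative ℤ),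
      Φ (ζ, e) = (ζ : U) * ∏ i, u i ^ Multiplicative.toAdd (e i) := fun ζ e => rfl
  have hbij : Function.Bijective Φ := by
    constructor
    · rintro ⟨ζ, e⟩ ⟨ζ', e'⟩ hEq
      rw [hΦ, hΦ] at hEq
      obtain ⟨w, -, hw⟩ := h ((ζ : U) * ∏ i, u i ^ Multiplicative.toAdd (e i))
      have h1 := hw (ζ, fun i => Multiplicative.toAdd (e i)) rfl
      have h2 := hw (ζ', fun i => Multiplicative.toAdd (e' i)) hEq
      have h3 : ((ζ, fun i => Multiplicative.toAdd (e i)) : T × (Fin n → ℤ)) =
          (ζ', fun i => Multiplicative.toAdd (e' i)) := h1.trans h2.symm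
      rw [Prod.mk.injEq] at h3
      obtain ⟨h4, h5⟩ := h3
      rw [Prod.mk.injEq]
      refine ⟨h4, ?_⟩
      funext i
      exact Multiplicative.toAdd.injective (congrFun h5 i)
    · intro x
      obtain ⟨⟨ζ, e⟩, hx, -⟩ := h x
      exact ⟨(ζ, fun i => Multiplicative.ofAdd (e i)), by rw [hΦ]; exact hx.symm⟩
  let E : T × (Fin n → Multiplicative ℤ) ≃* U := MulEquiv.ofBijective Φ hbij
  have hrange : (powMonoidHom p : U →* U).range =
      ((powMonoidHom p : T × (Fin n → Multiplicative ℤ) →* _).range).map (E : _ →* U) := by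
    ext x
    rw [Subgroup.mem_map, MonoidHom.mem_range]
    constructor
    · rintro ⟨y, rfl⟩
      refine ⟨(E.symm y) ^ p, ⟨E.symm y, rfl⟩, ?_⟩
      simp
    · rintro ⟨z, ⟨w, rfl⟩, rfl⟩
      exact ⟨E w, by simp⟩
  have hprod : (powMonoidHom p : T × (Fin n → Multiplicative ℤ) →* _).range =
      (powMonoidHom p : T →* T).range.prod
        (Subgroup.pi Set.univ fun _ : Fin n =>
          (powMonoidHom p : Multiplicative ℤ →* Multiplicative ℤ).range) := by
    ext ⟨a, b⟩
    rw [Subgroup.mem_prod, Subgroup.mem_pi, MonoidHom.mem_range]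
    constructor
    · rintro ⟨⟨a', b'⟩, hab⟩
      rw [powMonoidHom_apply, Prod.pow_mk, Prod.mk.injEq] at hab
      obtain ⟨ha, hb⟩ := hab
      refine ⟨⟨a', ha⟩, fun i _ => ⟨b' i, ?_⟩⟩
      rw [← hb]
      rfl
    · rintro ⟨⟨a', ha⟩, hb⟩
      choose b' hb' using fun i => hb i (Set.mem_univ i)
      refine ⟨(a', b'), ?_⟩
      rw [powMonoidHom_apply, Prod.pow_mk, Prod.mk.injEq]
      exact ⟨ha, funext hb'⟩
  rw [hrange, Subgroup.index_map_equiv, hprod, Subgroup.index_prod, Subgroup.index_pi,
    IsCyclic.index_powMonoidHom_range, Nat.gcd_eq_right hpT, Finset.prod_const, Finset.card_univ,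
    Fintype.card_fin, Free.aux_index_pow_int, pow_succ']

end Fermat.Agent.S14.SecondIneq.Units
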