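import Fermat.Agent.S14.SecondIneq.Defs

/-!
# S14 / SecondIneq / Units, leaf `Group`: splitting off an infinite cyclic factor

Pure group theory.  `G` a commutative group, `A ≤ G` a subgroup which is "`p`-saturated"
(`t ^ p ∈ A → t ∈ A`), `f : G →* Multiplicative ℤ` a homomorphism which is nontrivial on `A`.
Then `[A : A ∩ G^p] = p * [E : E ∩ G^p]` for `E = A ⊓ ker f`
(because `A = E × ⟨π₀⟩` with `⟨π₀⟩` infinite cyclic).  Both sides are `0` if the index is infinite.
-/

set_option autoImplicit false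

namespace Fermat.Agent.S14.SecondIneq.Units

/-- The subgroup of `Multiplicative ℤ` generated by `p` has index `p`. -/
theorem Group.aux_index_zpowers_ofAdd (p : ℕ) :
    (Subgroup.zpowers (Multiplicative.ofAdd (p : ℤ))).index = p := by
  have h : Subgroup.zpowers (Multiplicative.ofAdd (p : ℤ)) =
      AddSubgroup.toSubgroup (AddSubgroup.zmultiples (p : ℤ)) := by
    ext x
    rw [Subgroup.mem_zpowers_iff, Multiplicative.mem_toSubgroup, AddSubgroup.mem_zmultiples_iff]
    constructor
    · rintro ⟨k, rfl⟩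
      exact ⟨k, by simp⟩
    · rintro ⟨k, hk⟩
      refine ⟨k, ?_⟩
      apply Multiplicative.toAdd.injective
      rw [← hk]
      simp
  rw [h, AddSubgroup.index_toSubgroup, Int.index_zmultiples, Int.natAbs_natCast]

/-- A nontrivial subgroup `B` of `Multiplicative ℤ` has index `p` over its subgroup of `p`-th
powers. -/
theorem Group.relIndex_map_pow_int (B : Subgroup (Multiplicative ℤ)) (hB : B ≠ ⊥) {p : ℕ}
    (_hp : 0 < p) :
    (B.map (powMonoidHom p : Multiplicative ℤ →* Multiplicative ℤ)).relIndex B = p := by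
  obtain ⟨g, rfl⟩ := (Subgroup.isCyclic_iff_exists_zpowers_eq_top B).mp inferInstance
  have hg : g ≠ 1 := Subgroup.zpowers_ne_bot.mp hB
  have hg' : Multiplicative.toAdd g ≠ 0 := fun h => hg (Multiplicative.toAdd.injective h)
  rw [MonoidHom.map_zpowers, powMonoidHom_apply]
  have hinj : Function.Injective (zpowersHom (Multiplicative ℤ) g) := by
    rw [injective_iff_map_eq_one]
    intro m hm
    rw [zpowersHom_apply] at hm
    have h0 : Multiplicative.toAdd (g ^ Multiplicative.toAdd m) = 0 := by rw [hm]; rfl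
    rw [Int.toAdd_zpow, mul_eq_zero] at h0
    rcases h0 with h0 | h0
    · exact absurd h0 hg'
    · exact Multiplicative.toAdd.injective h0
  have h1 : Subgroup.zpowers g =
      (⊤ : Subgroup (Multiplicative ℤ)).map (zpowersHom (Multiplicative ℤ) g) := by
    rw [← MonoidHom.range_eq_map]
    rfl
  have h2 : Subgroup.zpowers (g ^ p) = (Subgroup.zpowers (Multiplicative.ofAdd (p : ℤ))).map
      (zpowersHom (Multiplicative ℤ) g) := by
    rw [MonoidHom.map_zpowers, zpowersHom_apply]
    simp
  rw [h2, h1, Subgroup.relIndex_map_map_of_injective _ _ hinj, Subgroup.relIndex_top_right,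
    Group.aux_index_zpowers_ofAdd]

/-- Splitting off an infinite cyclic factor multiplies the index of the `p`-th powers by `p`. -/
theorem relIndex_range_pow_eq_mul {G : Type*} [CommGroup G] {p : ℕ} (hp : 0 < p)
    (A : Subgroup G) (f : G →* Multiplicative ℤ) (hne : ∃ a ∈ A, f a ≠ 1)
    (hsat : ∀ t : G, t ^ p ∈ A → t ∈ A) :
    (powMonoidHom p : G →* G).range.relIndex A =
      p * (powMonoidHom p : G →* G).range.relIndex (A ⊓ f.ker) := by
  set P := (powMonoidHom p : G →* G).range with hP
  set E := A ⊓ f.ker with hE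
  set B := A.map f with hB
  set Q := B.map (powMonoidHom p : Multiplicative ℤ →* Multiplicative ℤ) with hQ
  have hBne : B ≠ ⊥ := by
    obtain ⟨a, ha, hfa⟩ := hne
    intro h
    have hmem : f a ∈ B := Subgroup.mem_map_of_mem f ha
    rw [h, Subgroup.mem_bot] at hmem
    exact hfa hmem
  have hK : (P ⊓ A) ⊔ E = A ⊓ Q.comap f := by
    apply le_antisymm
    · apply sup_le
      · intro x hx
        rw [Subgroup.mem_inf] at hx ⊢
        obtain ⟨⟨t, rfl⟩, hxA⟩ := hx
        refine ⟨hxA, ?_⟩
        have htA : t ∈ A := hsat t hxA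
        rw [Subgroup.mem_comap]
        exact ⟨f t, Subgroup.mem_map_of_mem f htA, by simp⟩
      · intro x hx
        rw [Subgroup.mem_inf] at hx ⊢
        obtain ⟨hxA, hxf⟩ := hx
        refine ⟨hxA, ?_⟩
        rw [Subgroup.mem_comap, MonoidHom.mem_ker.mp hxf]
        exact one_mem _
    · intro x hx
      rw [Subgroup.mem_inf, Subgroup.mem_comap] at hx
      obtain ⟨hxA, b, ⟨a, haA, rfl⟩, hb⟩ := hx
      have hapA : a ^ p ∈ A := pow_mem haA p
      have hx : x = a ^ p * (x * (a ^ p)⁻¹) := by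
        rw [mul_comm x, mul_inv_cancel_left]
      rw [hx]
      refine Subgroup.mul_mem_sup (Subgroup.mem_inf.mpr ⟨⟨a, rfl⟩, hapA⟩)
        (Subgroup.mem_inf.mpr ⟨A.mul_mem hxA (A.inv_mem hapA), ?_⟩)
      rw [MonoidHom.mem_ker, map_mul, map_inv, map_pow, ← hb]
      simp
  have h1 : P.relIndex A = (P ⊓ A).relIndex A := (Subgroup.inf_relIndex_right P A).symm
  have h2 : (P ⊓ A).relIndex ((P ⊓ A) ⊔ E) * ((P ⊓ A) ⊔ E).relIndex A = (P ⊓ A).relIndex A :=
    Subgroup.relIndex_mul_relIndex _ _ _ le_sup_left (sup_le inf_le_right inf_le_left)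
  have h3 : (P ⊓ A).relIndex ((P ⊓ A) ⊔ E) = P.relIndex E := by
    rw [Subgroup.relIndex_sup_left, ← Subgroup.inf_relIndex_right (P ⊓ A) E,
      ← Subgroup.inf_relIndex_right P E]
    congr 1
    rw [inf_assoc, inf_eq_right.mpr (inf_le_left : E ≤ A)]
  have h4 : ((P ⊓ A) ⊔ E).relIndex A = p := by
    rw [hK, Subgroup.inf_relIndex_left, Subgroup.relIndex_comap]
    exact Group.relIndex_map_pow_int B hBne hp
  rw [h1, ← h2, h3, h4, mul_comm]

end Fermat.Agent.S14.SecondIneq.Units
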