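import Fermat.Agent.S14.SecondIneq.Defs

/-!
# S14 / SecondIneq / Units, leaf `Step`: adding one prime to `S`

For `v ∉ S`:
* `unit_insert_inf_ker`: the `S`-units are the `(S ∪ {v})`-units with trivial valuation at `v`;
* `exists_mem_unit_insert`: there is an `(S ∪ {v})`-unit (even a `{v}`-unit) with nontrivial
  valuation at `v` (a generator of `v ^ h`, `h` the class number);
* `unit_saturated`: an `n`-th root (`n > 0`) in `Fˣ` of an `S`-unit is an `S`-unit.
-/

set_option autoImplicit false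

namespace Fermat.Agent.S14.SecondIneq.Units

open NumberField IsDedekindDomain
open scoped nonZeroDivisors

/-- `valuationOfNeZero` is trivial iff the valuation is `1`. -/
theorem Step.aux_valuationOfNeZero_eq_one_iff (F : Type*) [Field F] [NumberField F]
    (v : HeightOneSpectrum (𝓞 F)) (x : Fˣ) :
    (v.valuationOfNeZero : Fˣ →* Multiplicative ℤ) x = 1 ↔ v.valuation F (x : F) = 1 := by
  rw [← HeightOneSpectrum.valuationOfNeZero_eq, ← WithZero.coe_one, WithZero.coe_inj]

/-- The `S`-units are the `(S ∪ {v})`-units with trivial valuation at `v` (for `v ∉ S`). -/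
theorem unit_insert_inf_ker (F : Type*) [Field F] [NumberField F]
    (S : Set (HeightOneSpectrum (𝓞 F))) (v : HeightOneSpectrum (𝓞 F)) (hv : v ∉ S) :
    (insert v S).unit F ⊓ (v.valuationOfNeZero : Fˣ →* Multiplicative ℤ).ker = S.unit F := by
  ext x
  rw [Subgroup.mem_inf, MonoidHom.mem_ker, Step.aux_valuationOfNeZero_eq_one_iff]
  constructor
  · rintro ⟨h1, h2⟩ w hw
    by_cases hwv : w = v
    · rw [hwv]; exact h2
    · exact h1 w (fun h => (Set.mem_insert_iff.mp h).elim hwv hw)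
  · intro h
    exact ⟨fun w hw => h w (fun hwS => hw (Set.mem_insert_of_mem v hwS)), h v hv⟩

/-- There is an `(S ∪ {v})`-unit with nontrivial valuation at `v`. -/
theorem exists_mem_unit_insert (F : Type*) [Field F] [NumberField F]
    (S : Set (HeightOneSpectrum (𝓞 F))) (v : HeightOneSpectrum (𝓞 F)) :
    ∃ a ∈ (insert v S).unit F, (v.valuationOfNeZero : Fˣ →* Multiplicative ℤ) a ≠ 1 := by
  classical
  have hpos : 0 < Fintype.card (ClassGroup (𝓞 F)) := Fintype.card_pos
  have hI : v.asIdeal ∈ (Ideal (𝓞 F))⁰ := mem_nonZeroDivisors_of_ne_zero v.ne_bot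
  have hprinc : (v.asIdeal ^ Fintype.card (ClassGroup (𝓞 F))).IsPrincipal := by
    rw [← ClassGroup.mk0_eq_one_iff (pow_mem hI _)]
    have h1 : ClassGroup.mk0 ⟨v.asIdeal, hI⟩ ^ Fintype.card (ClassGroup (𝓞 F)) = 1 :=
      pow_card_eq_one
    rwa [← map_pow, SubmonoidClass.mk_pow] at h1
  obtain ⟨π, hπ⟩ := hprinc
  have hπ' : v.asIdeal ^ Fintype.card (ClassGroup (𝓞 F)) = Ideal.span {π} := hπ
  have hπ0 : π ≠ 0 := by
    rintro rfl
    have : v.asIdeal ^ Fintype.card (ClassGroup (𝓞 F)) = ⊥ := by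
      rw [hπ']; simp
    exact pow_ne_zero _ v.ne_bot this
  have hπmem : π ∈ v.asIdeal ^ Fintype.card (ClassGroup (𝓞 F)) := by
    rw [hπ']; exact Ideal.mem_span_singleton_self π
  have hπv : π ∈ v.asIdeal := Ideal.pow_le_self hpos.ne' hπmem
  have hne : algebraMap (𝓞 F) F π ≠ 0 := by
    simpa using hπ0
  refine ⟨Units.mk0 (algebraMap (𝓞 F) F π) hne, ?_, ?_⟩
  · intro w hw
    have hwv : w ≠ v := fun h => hw (h ▸ Set.mem_insert v S)
    show w.valuation F (algebraMap (𝓞 F) F π) = 1
    rw [HeightOneSpectrum.valuation_eq_one_iff_notMem]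
    intro hπw
    have hle : v.asIdeal ^ Fintype.card (ClassGroup (𝓞 F)) ≤ w.asIdeal := by
      rw [hπ', Ideal.span_singleton_le_iff_mem]
      exact hπw
    have hle' : v.asIdeal ≤ w.asIdeal := (w.isPrime.pow_le_iff hpos.ne').mp hle
    have heq : v.asIdeal = w.asIdeal := v.isMaximal.eq_of_le w.isPrime.ne_top hle'
    exact hwv (HeightOneSpectrum.ext heq.symm)
  · rw [Ne, Step.aux_valuationOfNeZero_eq_one_iff]
    show ¬ v.valuation F (algebraMap (𝓞 F) F π) = 1
    rw [HeightOneSpectrum.valuation_eq_one_iff_notMem]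
    exact fun h => h hπv

/-- An `n`-th root (in `Fˣ`) of an `S`-unit is an `S`-unit. -/
theorem unit_saturated (F : Type*) [Field F] [NumberField F]
    (S : Set (HeightOneSpectrum (𝓞 F))) {n : ℕ} (hn : 0 < n) (t : Fˣ)
    (h : t ^ n ∈ S.unit F) : t ∈ S.unit F := by
  intro w hw
  have h1 : w.valuation F ((t ^ n : Fˣ) : F) = 1 := h w hw
  rw [Units.val_pow_eq_pow_val, map_pow] at h1
  exact (pow_eq_one_iff_of_nonneg zero_le hn.ne').mp h1

end Fermat.Agent.S14.SecondIneq.Units
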